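/-
S58 glue (helper68): **existence of a newform below an eigenform**, formal from the prelude's
minimal-level definition of `CuspForm.IsNewform`.

* `exists_isNewform_of_goodEigensystem` : a normalised eigenform `f` of level `N ≠ 0` has a
  newform `g` of some level `M ∣ N` with `a_ℓ(g) = a_ℓ(f)` for all primes `ℓ ∤ N`.
* `nonzero_of_not_sq_dvd`, `disc_ne_zero_of_bad_dvd` : in the setting of S58, `N ≠ 0` and
  `W.Δ ≠ 0`.
-/
import Fermat.Prelude.Def_CuspForm_Newforms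
import Fermat.Prelude.Def_WeierstrassCurve_ConductorLevel

set_option autoImplicit false

namespace Fermat.Agent.H68.S58

open CuspForm ModularFormClass

/-- **Newform below an eigenform.** -/
theorem exists_isNewform_of_goodEigensystem {N : ℕ} (hN : N ≠ 0)
    (f : CuspForm (CongruenceSubgroup.Gamma0 N) 2) (hf : f.IsNormalizedEigenform) :
    ∃ (M : ℕ) (_ : M ∣ N) (g : CuspForm (CongruenceSubgroup.Gamma0 M) 2), g.IsNewform ∧
      ∀ ℓ : ℕ, ℓ.Prime → ¬ ℓ ∣ N → qCoeff g ℓ = qCoeff f ℓ := by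
  classical
  have hex : ∃ M : ℕ, M ∣ N ∧ GoodEigensystemOccursAt f M :=
    ⟨N, dvd_rfl, GoodEigensystemOccursAt.refl hf⟩
  obtain ⟨hMN, g, hg, hgf⟩ := Nat.find_spec hex
  have hmin : ∀ M' : ℕ, M' < Nat.find hex → ¬ (M' ∣ N ∧ GoodEigensystemOccursAt f M') :=
    fun M' h => Nat.find_min hex h
  have hM0 : Nat.find hex ≠ 0 := by
    intro h0
    rw [h0] at hMN
    exact hN (zero_dvd_iff.1 hMN)
  refine ⟨Nat.find hex, hMN, g, ⟨hg, ?_⟩, hgf⟩
  intro M' hM'M hne hocc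
  obtain ⟨g', hg', hg'g⟩ := hocc
  have hlt : M' < Nat.find hex :=
    lt_of_le_of_ne (Nat.le_of_dvd (Nat.pos_of_ne_zero hM0) hM'M) hne
  refine hmin M' hlt ⟨hM'M.trans hMN, g', hg', ?_⟩
  intro ℓ hℓ hℓN
  have hℓM : ¬ ℓ ∣ Nat.find hex := fun h => hℓN (h.trans hMN)
  rw [hg'g ℓ hℓ hℓM, hgf ℓ hℓ hℓN]

/-- In the setting of S58 the level is not zero. -/
theorem nonzero_of_not_sq_dvd {N p : ℕ} (h : ¬ p ^ 2 ∣ N) : N ≠ 0 := by
  rintro rfl
  exact h (dvd_zero _)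

/-- In the setting of S58 the discriminant is not zero: all bad primes divide `N ≠ 0`. -/
theorem disc_ne_zero_of_bad_dvd (W : WeierstrassCurve ℤ) {N : ℕ} (hN : N ≠ 0)
    (hbad : ∀ ℓ : ℕ, ℓ.Prime → (ℓ : ℤ) ∣ W.Δ → ℓ ∣ N) : W.Δ ≠ 0 := by
  intro h0
  obtain ⟨ℓ, hℓN, hℓ⟩ := Nat.exists_infinite_primes (N + 1)
  have h1 : ℓ ∣ N := hbad ℓ hℓ (by rw [h0]; exact dvd_zero _)
  have h2 : ℓ ≤ N := Nat.le_of_dvd (Nat.pos_of_ne_zero hN) h1
  omega

/-- In the setting of S58 the conductor level divides `N`. -/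
theorem conductorLevel_dvd (W : WeierstrassCurve ℤ) {N : ℕ} (hN : N ≠ 0)
    (hbad : ∀ ℓ : ℕ, ℓ.Prime → (ℓ : ℤ) ∣ W.Δ → ℓ ∣ N) : W.conductorLevel ∣ N := by
  have hΔ := disc_ne_zero_of_bad_dvd W hN hbad
  have hsq := W.squarefree_conductorLevel
  -- a squarefree number all of whose prime divisors divide `N` divides `N`
  rw [← Nat.factorization_le_iff_dvd W.conductorLevel_pos.ne' hN]
  intro ℓ
  by_cases hℓ : ℓ.Prime
  · by_cases hd : ℓ ∣ W.conductorLevel
    · have h1 : W.conductorLevel.factorization ℓ ≤ 1 :=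
        (Nat.squarefree_iff_factorization_le_one W.conductorLevel_pos.ne').1 hsq ℓ
      have h2 : ℓ ∣ N := hbad ℓ hℓ ((W.prime_dvd_conductorLevel_iff hΔ hℓ).1 hd)
      have h3 : 1 ≤ N.factorization ℓ :=
        (hℓ.dvd_iff_one_le_factorization hN).1 h2
      exact h1.trans h3
    · rw [Nat.factorization_eq_zero_of_not_dvd hd]
      exact Nat.zero_le _
  · rw [Nat.factorization_eq_zero_of_not_prime _ hℓ]
    exact Nat.zero_le _

end Fermat.Agent.H68.S58
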