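/-
S58 glue (helper68): **the trivial point count** `1 ≤ #E(𝔽) ≤ 2 #𝔽 + 1` and its consequence
`a_q ≠ ± (q + 1)` for `a_q = W.apOfModel q` (no Hasse bound needed).

Used to exclude a prime `q` of GOOD reduction from the level `M` of the newform: S35 gives the
Frobenius characteristic polynomial `X² ∓ (q + 1) X + q` at `q ∥ M`, the curve gives
`X² - a_q X + q`.
-/
import Mathlib
import Fermat.Prelude.Def_FLTPrelim_Modularity

set_option autoImplicit false
set_option linter.unusedSectionVars false

namespace Fermat.Agent.H68.S58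

open WeierstrassCurve

section field

variable {F : Type} [Field F] [Finite F]

/-- the `x`-coordinate (`0` at the point at infinity) -/
def pcX (W : WeierstrassCurve F) : W.toAffine.Point → F
  | .zero => 0
  | .some x _ _ => x

theorem pc_eq_or_eq_neg (W : WeierstrassCurve F) [DecidableEq F] {P Q : W.toAffine.Point}
    (hP : P ≠ 0) (hQ : Q ≠ 0) (h : pcX W P = pcX W Q) : P = Q ∨ P = -Q := by
  cases P with
  | zero => exact absurd rfl hP
  | some x₁ y₁ h₁ =>
    cases Q with
    | zero => exact absurd rfl hQ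
    | some x₂ y₂ h₂ =>
      have hx : x₁ = x₂ := h
      subst hx
      rcases Affine.Y_eq_of_X_eq h₁.1 h₂.1 rfl with hy | hy
      · left; subst hy; rfl
      · right; subst hy; rfl

/-- `1 ≤ #E(𝔽)` -/
theorem one_le_card (W : WeierstrassCurve F) : 1 ≤ W.card := by
  unfold WeierstrassCurve.card
  have : Nat.card W.toAffine.Point ≠ 0 :=
    Nat.card_ne_zero.2 ⟨⟨(Affine.Point.zero : W.toAffine.Point)⟩, inferInstance⟩
  omega

/-- `#E(𝔽) ≤ 2 #𝔽 + 1` -/
theorem card_le_two_mul (W : WeierstrassCurve F) : W.card ≤ 2 * Nat.card F + 1 := by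
  classical
  haveI : Fintype F := Fintype.ofFinite F
  haveI : Fintype W.toAffine.Point := Fintype.ofFinite _
  unfold WeierstrassCurve.card
  rw [Nat.card_eq_fintype_card, Nat.card_eq_fintype_card]
  set s : Finset W.toAffine.Point := Finset.univ.erase 0 with hs
  have h1 : Fintype.card W.toAffine.Point = s.card + 1 := by
    rw [hs, Finset.card_erase_of_mem (Finset.mem_univ _), Finset.card_univ]
    have : 0 < Fintype.card W.toAffine.Point :=
      Fintype.card_pos_iff.2 ⟨(Affine.Point.zero : W.toAffine.Point)⟩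
    omega
  have h2 : s.card ≤ 2 * (s.image (pcX W)).card := by
    apply Finset.card_le_mul_card_image
    intro x hx
    rw [Finset.mem_image] at hx
    obtain ⟨P₀, hP₀, rfl⟩ := hx
    have hP₀0 : P₀ ≠ 0 := by
      rw [hs, Finset.mem_erase] at hP₀
      exact hP₀.1
    have hsub : (s.filter fun P => pcX W P = pcX W P₀) ⊆ {P₀, -P₀} := by
      intro P hP
      rw [Finset.mem_filter, hs, Finset.mem_erase] at hP
      rcases pc_eq_or_eq_neg W hP.1.1 hP₀0 hP.2 with h | h
      · rw [h]; exact Finset.mem_insert_self _ _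
      · rw [h]; exact Finset.mem_insert_of_mem (Finset.mem_singleton_self _)
    calc (s.filter fun P => pcX W P = pcX W P₀).card ≤ ({P₀, -P₀} : Finset _).card :=
          Finset.card_le_card hsub
      _ ≤ 2 := Finset.card_le_two
  have h3 : (s.image (pcX W)).card ≤ Fintype.card F := Finset.card_le_univ _
  omega

/-- `a ≠ #𝔽 + 1` -/
theorem traceOfFrobenius_ne_add_one (W : WeierstrassCurve F) :
    W.traceOfFrobenius ≠ (Nat.card F : ℤ) + 1 := by
  unfold WeierstrassCurve.traceOfFrobenius
  have := one_le_card W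
  omega

/-- `a ≠ -(#𝔽 + 1)` -/
theorem traceOfFrobenius_ne_neg_add_one (W : WeierstrassCurve F) :
    W.traceOfFrobenius ≠ -((Nat.card F : ℤ) + 1) := by
  unfold WeierstrassCurve.traceOfFrobenius
  have := card_le_two_mul W
  omega

end field

/-- `a_q ≠ q + 1` for a prime `q` (any integral Weierstrass equation). -/
theorem apOfModel_ne_add_one (W : WeierstrassCurve ℤ) (q : ℕ) [Fact q.Prime] :
    W.apOfModel q ≠ (q : ℤ) + 1 := by
  have h := traceOfFrobenius_ne_add_one (W.reductionMod q)
  rw [Nat.card_zmod] at h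
  exact h

/-- `a_q ≠ -(q + 1)` for a prime `q` (any integral Weierstrass equation). -/
theorem apOfModel_ne_neg_add_one (W : WeierstrassCurve ℤ) (q : ℕ) [Fact q.Prime] :
    W.apOfModel q ≠ -((q : ℤ) + 1) := by
  have h := traceOfFrobenius_ne_neg_add_one (W.reductionMod q)
  rw [Nat.card_zmod] at h
  exact h

end Fermat.Agent.H68.S58
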